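import Mathlib

/-!
# Burnside's theorem in dimension two (owner: helper62)

Over an algebraically closed field `K`, if a monoid acts irreducibly on a two-dimensional space
`W`, then the operators of the action span `End K W`.
-/

namespace Fermat.Agent.TraceRigidity

open Module Submodule

variable {K : Type*} [Field K] {W : Type*} [AddCommGroup W] [Module K W]
  {G : Type*} [Monoid G]

/-- The span of the image of a monoid homomorphism is closed under multiplication. -/
lemma span_range_mul_mem (ρ : G →* Module.End K W) {f g : Module.End K W}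
    (hf : f ∈ span K (Set.range ρ)) (hg : g ∈ span K (Set.range ρ)) :
    f * g ∈ span K (Set.range ρ) := by
  have h : Subalgebra.toSubmodule (Algebra.adjoin K (Set.range ρ)) = span K (Set.range ρ) := by
    rw [Algebra.adjoin_eq_span]
    congr 1
    rw [← MonoidHom.coe_mrange, Submonoid.closure_eq]
  rw [← h] at hf hg ⊢
  exact (Algebra.adjoin K (Set.range ρ)).mul_mem hf hg

/-- **Burnside's theorem** for two-dimensional representations over an algebraically closed
field. -/
theorem burnside_two [IsAlgClosed K] (hW : Module.finrank K W = 2)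
    (ρ : G →* Module.End K W)
    (hirr : ∀ U : Submodule K W, (∀ x, ∀ w ∈ U, ρ x w ∈ U) → U = ⊥ ∨ U = ⊤) :
    span K (Set.range ρ) = ⊤ := by
  classical
  have : FiniteDimensional K W := Module.finite_of_finrank_eq_succ hW
  have : Nontrivial W := Module.nontrivial_of_finrank_pos (R := K) (by omega)
  set B := span K (Set.range ρ) with hB
  have hone : (1 : Module.End K W) ∈ B := subset_span ⟨1, map_one ρ⟩
  have hmulB : ∀ {f g : Module.End K W}, f ∈ B → g ∈ B → f * g ∈ B :=
    fun hf hg => span_range_mul_mem ρ hf hg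
  have hρB : ∀ x, ρ x ∈ B := fun x => subset_span ⟨x, rfl⟩
  -- Step 1: a non-scalar element
  have hns : ∃ x, ∀ c : K, ρ x ≠ c • (1 : Module.End K W) := by
    by_contra hcon
    simp only [not_exists, not_forall, not_not] at hcon
    obtain ⟨w, hw⟩ := exists_ne (0 : W)
    have hinv : ∀ x, ∀ v ∈ span K {w}, ρ x v ∈ span K {w} := by
      intro x v hv
      obtain ⟨c, hc⟩ := hcon x
      rw [hc]
      exact Submodule.smul_mem _ c hv
    rcases hirr _ hinv with h | h
    · exact hw (Submodule.span_singleton_eq_bot.1 h)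
    · have h1 := finrank_span_singleton (K := K) hw
      rw [h, finrank_top, hW] at h1
      omega
  obtain ⟨x₀, hx₀⟩ := hns
  obtain ⟨μ, hμ⟩ := Module.End.exists_eigenvalue (ρ x₀)
  set N : Module.End K W := ρ x₀ - μ • (1 : Module.End K W) with hN
  have hNB : N ∈ B := B.sub_mem (hρB x₀) (B.smul_mem μ hone)
  have hN0 : N ≠ 0 := fun h => hx₀ μ (sub_eq_zero.1 h)
  have hker : LinearMap.ker N ≠ ⊥ := by
    obtain ⟨v, hv⟩ := hμ.exists_hasEigenvector
    intro hbot
    have hvk : v ∈ LinearMap.ker N := by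
      rw [LinearMap.mem_ker, hN, LinearMap.sub_apply, hv.apply_eq_smul]
      simp
    rw [hbot, Submodule.mem_bot] at hvk
    exact hv.2 hvk
  -- Step 2: `N` has rank one
  obtain ⟨w₀, hw₀⟩ : ∃ w₀, N w₀ ≠ 0 := by
    by_contra h
    simp only [not_exists, not_not] at h
    exact hN0 (LinearMap.ext h)
  set u := N w₀ with hu
  have hrange : span K {u} = LinearMap.range N := by
    apply Submodule.eq_of_le_of_finrank_le
    · rw [span_singleton_le_iff_mem]; exact ⟨w₀, rfl⟩
    · rw [finrank_span_singleton hw₀]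
      have h1 := LinearMap.finrank_range_add_finrank_ker N
      have h2 : 1 ≤ finrank K (LinearMap.ker N) := Submodule.one_le_finrank_iff.2 hker
      omega
  obtain ⟨lam₀, hlam₀⟩ : ∃ lam : Module.Dual K W, lam u ≠ 0 := by
    by_contra h
    simp only [not_exists, not_not] at h
    exact hw₀ ((Module.forall_dual_apply_eq_zero_iff K u).1 h)
  set φ : Module.Dual K W := (lam₀ u)⁻¹ • (lam₀ ∘ₗ N) with hφ
  have hNφ : ∀ w, N w = φ w • u := by
    intro w
    have hmem : N w ∈ span K {u} := hrange ▸ LinearMap.mem_range_self N w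
    obtain ⟨c, hc⟩ := mem_span_singleton.1 hmem
    rw [hφ, LinearMap.smul_apply, LinearMap.comp_apply, ← hc, map_smul, smul_eq_mul, smul_eq_mul,
      mul_comm c, ← mul_assoc, inv_mul_cancel₀ hlam₀, one_mul]
  have hφw₀ : φ w₀ ≠ 0 := by
    intro h
    have := hNφ w₀
    rw [h, zero_smul] at this
    exact hw₀ this
  -- Step 3: `B u = W`
  have hBu : ∀ w, ∃ c ∈ B, c u = w := by
    set U₁ : Submodule K W := B.map (LinearMap.applyₗ u) with hU₁
    have hmemU : ∀ w, w ∈ U₁ ↔ ∃ c ∈ B, c u = w := by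
      intro w
      rw [hU₁, Submodule.mem_map]
      rfl
    have hinv : ∀ x, ∀ w ∈ U₁, ρ x w ∈ U₁ := by
      intro x w hw
      obtain ⟨c, hc, rfl⟩ := (hmemU w).1 hw
      exact (hmemU _).2 ⟨ρ x * c, hmulB (hρB x) hc, rfl⟩
    have hu1 : u ∈ U₁ := (hmemU u).2 ⟨1, hone, rfl⟩
    rcases hirr _ hinv with h | h
    · rw [h, Submodule.mem_bot] at hu1
      exact absurd hu1 hw₀
    · intro w
      exact (hmemU w).1 (h ▸ Submodule.mem_top)
  -- Step 4: `φ ∘ B = W*`
  have hφB : ∀ ψ : Module.Dual K W, ∃ d ∈ B, φ ∘ₗ d = ψ := by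
    set Φ : Submodule K (Module.Dual K W) := B.map (LinearMap.llcomp K W W K φ) with hΦ
    have hmemΦ : ∀ ψ, ψ ∈ Φ ↔ ∃ d ∈ B, φ ∘ₗ d = ψ := by
      intro ψ
      rw [hΦ, Submodule.mem_map]
      rfl
    have hinv : ∀ x, ∀ w ∈ Φ.dualCoannihilator, ρ x w ∈ Φ.dualCoannihilator := by
      intro x w hw
      rw [Submodule.mem_dualCoannihilator] at hw ⊢
      intro ψ hψ
      obtain ⟨d, hd, rfl⟩ := (hmemΦ ψ).1 hψ
      exact hw (φ ∘ₗ (d * ρ x)) ((hmemΦ _).2 ⟨d * ρ x, hmulB hd (hρB x), rfl⟩)
    have hZ : Φ.dualCoannihilator = ⊥ := by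
      rcases hirr _ hinv with h | h
      · exact h
      · exfalso
        have hw : w₀ ∈ Φ.dualCoannihilator := h ▸ Submodule.mem_top
        rw [Submodule.mem_dualCoannihilator] at hw
        exact hφw₀ (hw φ ((hmemΦ φ).2 ⟨1, hone, rfl⟩))
    have hΦtop : Φ = ⊤ := by
      rw [← Subspace.dualCoannihilator_dualAnnihilator_eq (W := Φ), hZ,
        Submodule.dualAnnihilator_bot]
    intro ψ
    exact (hmemΦ ψ).1 (hΦtop ▸ Submodule.mem_top)
  -- Steps 5-6
  rw [eq_top_iff]
  intro f _
  set b : Basis (Fin 2) K W := Module.finBasisOfFinrankEq K W hW with hb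
  choose c hcB hc using hBu
  choose d hdB hd using hφB
  have hf : f = ∑ i, c (b i) * N * d (b.coord i ∘ₗ f) := by
    refine LinearMap.ext fun v => ?_
    rw [LinearMap.sum_apply]
    conv_lhs => rw [← b.sum_repr (f v)]
    refine Finset.sum_congr rfl fun i _ => ?_
    rw [Module.End.mul_apply, Module.End.mul_apply, hNφ, map_smul, hc]
    congr 1
    have := LinearMap.congr_fun (hd (b.coord i ∘ₗ f)) v
    rw [LinearMap.comp_apply] at this
    rw [this]
    rfl
  rw [hf]
  exact Submodule.sum_mem _ fun i _ => hmulB (hmulB (hcB _) hNB) (hdB _)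

end Fermat.Agent.TraceRigidity
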