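import Mathlib

/-!
# Skolem–Noether for matrix algebras over a local ring (owner: helper62)

Every `A`-algebra endomorphism `ψ` of `Matrix n n A`, `A` a commutative local ring, is
conjugation by an invertible matrix: there is `P` with `IsUnit P.det` and `ψ M * P = P * M`.

The matrix `P` is explicit: `P = ∑ c, ψ (single c a 1) * single i₀ c 1`, where `a` is chosen such
that the entry `ψ (single a a 1) i₀ i₀` is a unit (possible since `∑ a, ψ (single a a 1) = 1`).
-/

namespace Fermat.Agent.TraceRigidity

open Matrix

variable {n : Type*} [Fintype n] [DecidableEq n] {A : Type*} [CommRing A]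

/-- The candidate conjugating matrix. -/
noncomputable def snP (ψ : Matrix n n A →ₗ[A] Matrix n n A) (a i₀ : n) : Matrix n n A :=
  ∑ c, ψ (single c a 1) * single i₀ c 1

/-- The candidate left inverse (up to the scalar `ψ (single a a 1) i₀ i₀`). -/
noncomputable def snQ (ψ : Matrix n n A →ₗ[A] Matrix n n A) (a i₀ : n) : Matrix n n A :=
  ∑ c, single c i₀ 1 * ψ (single a c 1)

lemma snP_intertwine (ψ : Matrix n n A →ₗ[A] Matrix n n A)
    (hmul : ∀ M N, ψ (M * N) = ψ M * ψ N) (a i₀ : n) (M : Matrix n n A) :
    ψ M * snP ψ a i₀ = snP ψ a i₀ * M := by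
  induction M using Matrix.induction_on' with
  | h_zero => simp
  | h_add p q hp hq => rw [map_add, add_mul, mul_add, hp, hq]
  | h_std_basis c d x =>
    unfold snP
    rw [Finset.mul_sum, Finset.sum_mul]
    have h1 : ∀ c' : n, ψ (single c d x) * (ψ (single c' a 1) * single i₀ c' 1)
        = if c' = d then x • (ψ (single c a 1) * single i₀ d 1) else 0 := by
      intro c'
      rw [← mul_assoc, ← hmul]
      by_cases h : c' = d
      · subst h
        rw [if_pos rfl, single_mul_single_same, mul_one]
        have : single c a x = x • single c a (1 : A) := by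
          rw [smul_single, smul_eq_mul, mul_one]
        rw [this, map_smul, smul_mul_assoc]
      · rw [if_neg h, single_mul_single_of_ne _ _ _ _ (Ne.symm h) _, map_zero, zero_mul]
    have h2 : ∀ c' : n, ψ (single c' a 1) * single i₀ c' 1 * single c d x
        = if c' = c then x • (ψ (single c a 1) * single i₀ d 1) else 0 := by
      intro c'
      rw [mul_assoc]
      by_cases h : c' = c
      · subst h
        rw [if_pos rfl, single_mul_single_same, one_mul]
        have : single i₀ d x = x • single i₀ d (1 : A) := by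
          rw [smul_single, smul_eq_mul, mul_one]
        rw [this, mul_smul_comm]
      · rw [if_neg h, single_mul_single_of_ne _ _ _ _ h _, mul_zero]
    simp only [h1, h2, Finset.sum_ite_eq', Finset.mem_univ, if_true]

lemma snQ_mul_snP (ψ : Matrix n n A →ₗ[A] Matrix n n A)
    (hmul : ∀ M N, ψ (M * N) = ψ M * ψ N) (a i₀ : n) :
    snQ ψ a i₀ * snP ψ a i₀ = (ψ (single a a 1) i₀ i₀) • (1 : Matrix n n A) := by
  unfold snQ snP
  rw [Finset.sum_mul]
  have h1 : ∀ c : n, single c i₀ 1 * ψ (single a c 1) * ∑ c', ψ (single c' a 1) * single i₀ c' 1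
      = single c c (ψ (single a a 1) i₀ i₀) := by
    intro c
    rw [Finset.mul_sum]
    have h2 : ∀ c' : n, single c i₀ 1 * ψ (single a c 1) * (ψ (single c' a 1) * single i₀ c' 1)
        = if c' = c then single c c (ψ (single a a 1) i₀ i₀) else 0 := by
      intro c'
      rw [mul_assoc (single c i₀ 1), ← mul_assoc (ψ (single a c 1)), ← hmul, ← mul_assoc]
      by_cases h : c' = c
      · subst h
        rw [if_pos rfl, single_mul_single_same, mul_one, single_mul_mul_single, one_mul, mul_one]
      · rw [if_neg h, single_mul_single_of_ne _ _ _ _ (Ne.symm h) _, map_zero, mul_zero, zero_mul]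
    simp only [h2, Finset.sum_ite_eq', Finset.mem_univ, if_true]
  simp only [h1]
  rw [sum_single_eq_diagonal]
  ext i j
  simp [Matrix.diagonal_apply, Matrix.one_apply]

/-- **Skolem–Noether over a local ring**: a multiplicative unital `A`-linear endomorphism of
`Matrix n n A` is conjugation by an invertible matrix. -/
theorem exists_conj_of_linear_mul [IsLocalRing A] [Nonempty n]
    (ψ : Matrix n n A →ₗ[A] Matrix n n A) (hone : ψ 1 = 1)
    (hmul : ∀ M N, ψ (M * N) = ψ M * ψ N) :
    ∃ P : Matrix n n A, IsUnit P.det ∧ ∀ M, ψ M * P = P * M := by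
  classical
  obtain ⟨i₀⟩ := ‹Nonempty n›
  have hsum : ∑ a, ψ (single a a 1) i₀ i₀ = 1 := by
    have h1 : ψ (∑ a, single a a (1 : A)) = 1 := by rw [sum_single_one, hone]
    rw [map_sum] at h1
    have h2 := congrFun (congrFun h1 i₀) i₀
    rwa [Matrix.sum_apply, Matrix.one_apply_eq] at h2
  have hex : ∃ a, IsUnit (ψ (single a a 1) i₀ i₀) := by
    by_contra hcon
    simp only [not_exists] at hcon
    have hmem : ∑ a, ψ (single a a 1) i₀ i₀ ∈ IsLocalRing.maximalIdeal A :=
      Ideal.sum_mem _ fun a _ => (IsLocalRing.mem_maximalIdeal _).2 (hcon a)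
    rw [hsum] at hmem
    exact (IsLocalRing.mem_maximalIdeal _).1 hmem isUnit_one
  obtain ⟨a, ha⟩ := hex
  refine ⟨snP ψ a i₀, ?_, fun M => snP_intertwine ψ hmul a i₀ M⟩
  have h := congrArg Matrix.det (snQ_mul_snP ψ hmul a i₀)
  rw [Matrix.det_mul, Matrix.det_smul, Matrix.det_one, mul_one] at h
  have hu : IsUnit ((snQ ψ a i₀).det * (snP ψ a i₀).det) := by
    rw [h]; exact ha.pow _
  exact isUnit_of_mul_isUnit_right hu

end Fermat.Agent.TraceRigidity
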