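import Mathlib
import Fermat.Agent.Lib.TraceRigidity.SkolemNoether

/-!
# Trace rigidity (Carayol's lemma), matrix form, `n = 2` (owner: helper62)

Let `A` be a commutative local ring and `r₁ r₂ : G →* M₂(A)` two representations of a monoid with
the same trace.  If four matrices `r₁ (g j)` form an `A`-basis of `M₂(A)` (this holds as soon as
the reduction of `r₁` is absolutely irreducible, by Burnside and Nakayama), then `r₁` and `r₂`
are conjugate: there is `P` with `IsUnit P.det` and `r₂ x * P = P * r₁ x` for all `x`.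
-/

namespace Fermat.Agent.TraceRigidity

open Matrix Module

variable {A : Type*} [CommRing A] {G : Type*}

/-- The matrix whose column `j` is the coordinate vector of `r (g j)`. -/
def coordMat (r : G → Matrix (Fin 2) (Fin 2) A) (g : Fin 2 × Fin 2 → G) :
    Matrix (Fin 2 × Fin 2) (Fin 2 × Fin 2) A :=
  Matrix.of fun ab j => r (g j) ab.1 ab.2

/-- The Gram matrix of the trace form on the family `r (g j)`. -/
def gramMat (r : G → Matrix (Fin 2) (Fin 2) A) (g : Fin 2 × Fin 2 → G) :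
    Matrix (Fin 2 × Fin 2) (Fin 2 × Fin 2) A :=
  Matrix.of fun j l => (r (g j) * r (g l)).trace

lemma stdBasis_repr_apply (M : Matrix (Fin 2) (Fin 2) A) (ab : Fin 2 × Fin 2) :
    (Matrix.stdBasis A (Fin 2) (Fin 2)).repr M ab = M ab.1 ab.2 := by
  obtain ⟨a, b⟩ := ab
  simp [Matrix.stdBasis]

lemma stdBasis_toMatrix (r : G → Matrix (Fin 2) (Fin 2) A) (g : Fin 2 × Fin 2 → G) :
    (Matrix.stdBasis A (Fin 2) (Fin 2)).toMatrix (fun j => r (g j)) = coordMat r g := by
  ext ab j
  rw [Basis.toMatrix_apply, stdBasis_repr_apply]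
  rfl

lemma gramMat_eq (r : G → Matrix (Fin 2) (Fin 2) A) (g : Fin 2 × Fin 2 → G) :
    gramMat r g = (coordMat r g)ᵀ * (coordMat r g).submatrix
      (Equiv.prodComm (Fin 2) (Fin 2)) id := by
  ext j l
  simp only [gramMat, coordMat, Matrix.of_apply, Matrix.mul_apply, Matrix.transpose_apply,
    Matrix.submatrix_apply, id, Matrix.trace, Matrix.diag_apply, Equiv.prodComm_apply,
    Prod.fst_swap, Prod.snd_swap]
  rw [Fintype.sum_prod_type]

lemma isUnit_det_gramMat_iff (r : G → Matrix (Fin 2) (Fin 2) A) (g : Fin 2 × Fin 2 → G) :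
    IsUnit (gramMat r g).det ↔ IsUnit (coordMat r g).det := by
  rw [gramMat_eq, Matrix.det_mul, Matrix.det_transpose, Matrix.det_permute]
  constructor
  · intro h
    exact isUnit_of_mul_isUnit_left h
  · intro h
    refine h.mul (IsUnit.mul ?_ h)
    exact ((Units.isUnit (Equiv.Perm.sign (Equiv.prodComm (Fin 2) (Fin 2)))).map
      (Int.castRingHom A))

/-- **Trace rigidity, matrix form.** -/
theorem exists_conj_of_trace_eq [Monoid G] [IsLocalRing A]
    (r₁ r₂ : G →* Matrix (Fin 2) (Fin 2) A)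
    (htr : ∀ x, (r₁ x).trace = (r₂ x).trace)
    (g : Fin 2 × Fin 2 → G) (hg : IsUnit (coordMat r₁ g).det) :
    ∃ P : Matrix (Fin 2) (Fin 2) A, IsUnit P.det ∧ ∀ x, r₂ x * P = P * r₁ x := by
  classical
  have hD : gramMat r₁ g = gramMat r₂ g := by
    ext j l
    simp only [gramMat, Matrix.of_apply, ← map_mul, htr]
  have hDu : IsUnit (gramMat r₁ g).det := (isUnit_det_gramMat_iff _ g).2 hg
  have hg2 : IsUnit (coordMat r₂ g).det := by
    rw [← isUnit_det_gramMat_iff, ← hD]; exact hDu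
  set e := Matrix.stdBasis A (Fin 2) (Fin 2) with he
  obtain ⟨hli1, hsp1⟩ := (Basis.is_basis_iff_det e (v := fun j => r₁ (g j))).2
    (by rw [Basis.det_apply, stdBasis_toMatrix]; exact hg)
  obtain ⟨hli2, hsp2⟩ := (Basis.is_basis_iff_det e (v := fun j => r₂ (g j))).2
    (by rw [Basis.det_apply, stdBasis_toMatrix]; exact hg2)
  set b₁ := Basis.mk hli1 hsp1.ge with hb₁
  set b₂ := Basis.mk hli2 hsp2.ge with hb₂
  have hb₁j : ∀ j, b₁ j = r₁ (g j) := fun j => by rw [hb₁, Basis.mk_apply]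
  have hb₂j : ∀ j, b₂ j = r₂ (g j) := fun j => by rw [hb₂, Basis.mk_apply]
  set ψ : Matrix (Fin 2) (Fin 2) A →ₗ[A] Matrix (Fin 2) (Fin 2) A :=
    b₁.constr A (fun j => r₂ (g j)) with hψdef
  -- the coordinates of `r₁ x` and `r₂ x` agree
  have hcoord : ∀ (b : Basis (Fin 2 × Fin 2) A (Matrix (Fin 2) (Fin 2) A))
      (r : G →* Matrix (Fin 2) (Fin 2) A), (∀ j, b j = r (g j)) → ∀ x,
      Matrix.vecMul (fun j => b.repr (r x) j) (gramMat r g) =
        fun l => (r (x * g l)).trace := by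
    intro b r hb x
    funext l
    have hx : r x = ∑ j, b.repr (r x) j • r (g j) := by
      conv_lhs => rw [← b.sum_repr (r x)]
      exact Finset.sum_congr rfl fun j _ => by rw [hb]
    rw [map_mul]
    conv_rhs => rw [hx]
    rw [Finset.sum_mul, Matrix.trace_sum]
    simp only [Matrix.vecMul, dotProduct, gramMat, Matrix.of_apply, smul_mul_assoc,
      Matrix.trace_smul, smul_eq_mul]
  have hrepr : ∀ x, (fun j => b₁.repr (r₁ x) j) = fun j => b₂.repr (r₂ x) j := by
    intro x
    have h1 := hcoord b₁ r₁ hb₁j x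
    have h2 := hcoord b₂ r₂ hb₂j x
    rw [← hD] at h2
    have h3 : Matrix.vecMul (fun j => b₁.repr (r₁ x) j) (gramMat r₁ g) =
        Matrix.vecMul (fun j => b₂.repr (r₂ x) j) (gramMat r₁ g) := by
      rw [h1, h2]
      funext l
      exact htr _
    exact Matrix.vecMul_injective_of_isUnit
      ((Matrix.isUnit_iff_isUnit_det _).2 hDu) h3
  have hψ : ∀ x, ψ (r₁ x) = r₂ x := by
    intro x
    conv_lhs => rw [← b₁.sum_repr (r₁ x)]
    rw [map_sum]
    conv_rhs => rw [← b₂.sum_repr (r₂ x)]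
    refine Finset.sum_congr rfl fun j _ => ?_
    rw [map_smul, hψdef, Basis.constr_basis, hb₂j, congrFun (hrepr x) j]
  have hone : ψ 1 = 1 := by
    have h := hψ 1
    rwa [map_one r₁, map_one r₂] at h
  have hmul : ∀ M N, ψ (M * N) = ψ M * ψ N := by
    have key : ∀ j l, ψ (b₁ j * b₁ l) = ψ (b₁ j) * ψ (b₁ l) := by
      intro j l
      rw [hb₁j, hb₁j, ← map_mul, hψ, hψ, hψ, map_mul]
    have h1 : (LinearMap.mul A (Matrix (Fin 2) (Fin 2) A)).compr₂ ψ =
        (LinearMap.mul A (Matrix (Fin 2) (Fin 2) A)).compl₁₂ ψ ψ := by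
      refine b₁.ext fun j => b₁.ext fun l => ?_
      simpa using key j l
    intro M N
    simpa using LinearMap.congr_fun₂ h1 M N
  obtain ⟨P, hP, hPM⟩ := exists_conj_of_linear_mul ψ hone hmul
  exact ⟨P, hP, fun x => by rw [← hψ x, hPM]⟩

end Fermat.Agent.TraceRigidity
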