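import Mathlib
import Fermat.Prelude.Def_GaloisRep_Adic
import Fermat.Agent.Lib.TraceRigidity.Core
import Fermat.Agent.Lib.TraceRigidity.Burnside

/-!
# Trace rigidity for `GaloisRepAdic` (Carayol's lemma) (owner: helper62)

Two representations `ρ₁ ρ₂ : GaloisRepAdic A` over a local ring `A` with the same traces, the
first one residually absolutely irreducible, are equivalent (`GaloisRepAdic.IsEquiv`).
-/

namespace Fermat.Agent.TraceRigidity

open Matrix Module TensorProduct

/-- From a spanning family of `2 × 2` matrices over a field one can extract a basis. -/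
lemma exists_coordMat_det_ne_zero {K : Type*} [Field K] {G : Type*}
    (r : G → Matrix (Fin 2) (Fin 2) K) (hspan : Submodule.span K (Set.range r) = ⊤) :
    ∃ g : Fin 2 × Fin 2 → G, (coordMat r g).det ≠ 0 := by
  classical
  set B := Basis.ofSpan hspan.ge with hB
  set e := B.indexEquiv (Matrix.stdBasis K (Fin 2) (Fin 2)) with he
  set B' := B.reindex e with hB'
  have hmem : ∀ j : Fin 2 × Fin 2, ∃ x : G, r x = B' j := by
    intro j
    have h1 : B (e.symm j) ∈ Set.range r := Basis.ofSpan_subset hspan.ge ⟨e.symm j, rfl⟩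
    obtain ⟨x, hx⟩ := h1
    exact ⟨x, by rw [hx, hB', Basis.reindex_apply]⟩
  choose g hg using hmem
  refine ⟨g, ?_⟩
  have h2 : (fun j => r (g j)) = ⇑B' := funext hg
  have h3 : IsUnit ((Matrix.stdBasis K (Fin 2) (Fin 2)).det (fun j => r (g j))) := by
    rw [h2]
    exact Basis.isUnit_det _ B'
  rw [Basis.det_apply, stdBasis_toMatrix] at h3
  exact h3.ne_zero

lemma coordMat_map {A B : Type*} [CommRing A] [CommRing B] (φ : A →+* B) {G : Type*}
    (r : G → Matrix (Fin 2) (Fin 2) A) (g : Fin 2 × Fin 2 → G) :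
    coordMat (fun x => (r x).map φ) g = (coordMat r g).map φ := by
  ext ab j
  rfl

lemma span_range_toMatrix {K : Type*} [Field K] {W : Type*} [AddCommGroup W] [Module K W]
    (bK : Basis (Fin 2) K W) {G : Type*} (ρ : G → Module.End K W)
    (h : Submodule.span K (Set.range ρ) = ⊤) :
    Submodule.span K (Set.range fun σ => LinearMap.toMatrix bK bK (ρ σ)) = ⊤ := by
  have h1 : (Set.range fun σ => LinearMap.toMatrix bK bK (ρ σ)) =
      ((LinearMap.toMatrix bK bK).toLinearMap :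
        Module.End K W →ₗ[K] Matrix (Fin 2) (Fin 2) K) '' (Set.range ρ) := by
    rw [← Set.range_comp]
    rfl
  rw [h1, ← Submodule.map_span, h, Submodule.map_top, LinearMap.range_eq_top]
  exact (LinearMap.toMatrix bK bK).surjective

/-- Auxiliary form of `exists_isUnit_det_coordMat` with all types explicit. -/
theorem exists_isUnit_det_coordMat_aux {A : Type*} [CommRing A] [IsLocalRing A]
    {V : Type*} [AddCommGroup V] [Module A V] (b : Basis (Fin 2) A V)
    {G : Type*} [Monoid G] (ρ : G →* Module.End A V)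
    (hirr : ∀ U : Submodule (AlgebraicClosure (IsLocalRing.ResidueField A))
        (AlgebraicClosure (IsLocalRing.ResidueField A) ⊗[IsLocalRing.ResidueField A]
          (IsLocalRing.ResidueField A ⊗[A] V)),
      (∀ x, ∀ w ∈ U, ((ρ x).baseChange (IsLocalRing.ResidueField A)).baseChange
        (AlgebraicClosure (IsLocalRing.ResidueField A)) w ∈ U) → U = ⊥ ∨ U = ⊤) :
    ∃ g : Fin 2 × Fin 2 → G,
      IsUnit (coordMat (fun σ => LinearMap.toMatrix b b (ρ σ)) g).det := by
  classical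
  set k := IsLocalRing.ResidueField A with hk
  set K := AlgebraicClosure k with hK
  set ρK : G →* Module.End K (K ⊗[k] (k ⊗[A] V)) :=
    { toFun := fun x => ((ρ x).baseChange k).baseChange K
      map_one' := by rw [map_one, LinearMap.baseChange_one, LinearMap.baseChange_one]
      map_mul' := fun x y => by
        rw [map_mul, LinearMap.baseChange_mul, LinearMap.baseChange_mul] } with hρK
  set bk : Basis (Fin 2) k (k ⊗[A] V) := Algebra.TensorProduct.basis k b with hbk
  set bK : Basis (Fin 2) K (K ⊗[k] (k ⊗[A] V)) := Algebra.TensorProduct.basis K bk with hbK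
  have hfin : Module.finrank K (K ⊗[k] (k ⊗[A] V)) = 2 := by
    rw [Module.finrank_eq_card_basis bK, Fintype.card_fin]
  have hspan : Submodule.span K (Set.range ρK) = ⊤ := burnside_two hfin ρK hirr
  set rK : G → Matrix (Fin 2) (Fin 2) K := fun σ => LinearMap.toMatrix bK bK (ρK σ) with hrK
  have hrK_eq : ∀ σ, rK σ = ((LinearMap.toMatrix b b (ρ σ)).map (algebraMap A k)).map
      (algebraMap k K) := by
    intro σ
    rw [← LinearMap.toMatrix_baseChange, ← LinearMap.toMatrix_baseChange]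
    rfl
  have hspan' : Submodule.span K (Set.range rK) = ⊤ := span_range_toMatrix bK ρK hspan
  obtain ⟨g, hg⟩ := exists_coordMat_det_ne_zero rK hspan'
  refine ⟨g, ?_⟩
  have h2 : coordMat rK g = ((algebraMap k K).comp (algebraMap A k)).mapMatrix
      (coordMat (fun σ => LinearMap.toMatrix b b (ρ σ)) g) := by
    ext ab j
    simp only [coordMat, Matrix.of_apply, RingHom.mapMatrix_apply, Matrix.map_apply]
    rw [hrK_eq]
    rfl
  rw [h2, ← RingHom.map_det] at hg
  by_contra hnu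
  apply hg
  have h4 : (coordMat (fun σ => LinearMap.toMatrix b b (ρ σ)) g).det ∈
      IsLocalRing.maximalIdeal A := (IsLocalRing.mem_maximalIdeal _).2 hnu
  rw [RingHom.comp_apply, IsLocalRing.ResidueField.algebraMap_eq,
    (IsLocalRing.residue_eq_zero_iff _).2 h4, map_zero]

/-- If the residual representation is absolutely irreducible, four matrices of the representation
form a basis of `M₂(A)`. -/
theorem exists_isUnit_det_coordMat {A : Type} [CommRing A] [IsLocalRing A] (ρ : GaloisRepAdic A)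
    (habs : ρ.residual.IsAbsolutelyIrreducible) (b : Basis (Fin 2) A ρ.V) :
    ∃ g : Fin 2 × Fin 2 → (AlgebraicClosure ℚ ≃ₐ[ℚ] AlgebraicClosure ℚ),
      IsUnit (coordMat (fun σ => LinearMap.toMatrix b b (ρ.ρ σ)) g).det :=
  exists_isUnit_det_coordMat_aux b ρ.ρ habs

/-- **Carayol's lemma for `GaloisRepAdic`.** -/
theorem isEquiv_of_trace_eq {A : Type} [CommRing A] [IsLocalRing A] (ρ₁ ρ₂ : GaloisRepAdic A)
    (habs : ρ₁.residual.IsAbsolutelyIrreducible)
    (htr : ∀ σ, LinearMap.trace A ρ₁.V (ρ₁.ρ σ) = LinearMap.trace A ρ₂.V (ρ₂.ρ σ)) :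
    ρ₁.IsEquiv ρ₂ := by
  classical
  set b₁ : Basis (Fin 2) A ρ₁.V := Module.finBasisOfFinrankEq A ρ₁.V ρ₁.finrank_eq with hb₁
  set b₂ : Basis (Fin 2) A ρ₂.V := Module.finBasisOfFinrankEq A ρ₂.V ρ₂.finrank_eq with hb₂
  set r₁ : (AlgebraicClosure ℚ ≃ₐ[ℚ] AlgebraicClosure ℚ) →* Matrix (Fin 2) (Fin 2) A :=
    ((LinearMap.toMatrixAlgEquiv b₁ : Module.End A ρ₁.V ≃ₐ[A] Matrix (Fin 2) (Fin 2) A) :
      Module.End A ρ₁.V →* Matrix (Fin 2) (Fin 2) A).comp ρ₁.ρ with hr₁
  set r₂ : (AlgebraicClosure ℚ ≃ₐ[ℚ] AlgebraicClosure ℚ) →* Matrix (Fin 2) (Fin 2) A :=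
    ((LinearMap.toMatrixAlgEquiv b₂ : Module.End A ρ₂.V ≃ₐ[A] Matrix (Fin 2) (Fin 2) A) :
      Module.End A ρ₂.V →* Matrix (Fin 2) (Fin 2) A).comp ρ₂.ρ with hr₂
  have hr₁a : ∀ σ, r₁ σ = LinearMap.toMatrix b₁ b₁ (ρ₁.ρ σ) := fun σ => rfl
  have hr₂a : ∀ σ, r₂ σ = LinearMap.toMatrix b₂ b₂ (ρ₂.ρ σ) := fun σ => rfl
  have htr' : ∀ σ, (r₁ σ).trace = (r₂ σ).trace := by
    intro σ
    rw [hr₁a, hr₂a, ← LinearMap.trace_eq_matrix_trace A b₁, ← LinearMap.trace_eq_matrix_trace A b₂]
    exact htr σ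
  obtain ⟨g, hg⟩ := exists_isUnit_det_coordMat ρ₁ habs b₁
  obtain ⟨P, hP, hPx⟩ := exists_conj_of_trace_eq r₁ r₂ htr' g hg
  have hPdet : IsUnit (LinearMap.toMatrix b₁ b₂ (Matrix.toLin b₁ b₂ P)).det := by
    rw [LinearMap.toMatrix_toLin]; exact hP
  refine ⟨⟨LinearEquiv.ofIsUnitDet hPdet, fun σ x => ?_⟩⟩
  rw [LinearEquiv.ofIsUnitDet_apply, LinearEquiv.ofIsUnitDet_apply]
  have h1 : Matrix.toLin b₁ b₂ P ∘ₗ ρ₁.ρ σ = ρ₂.ρ σ ∘ₗ Matrix.toLin b₁ b₂ P := by
    apply (LinearMap.toMatrix b₁ b₂).injective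
    rw [LinearMap.toMatrix_comp b₁ b₁ b₂, LinearMap.toMatrix_comp b₁ b₂ b₂,
      LinearMap.toMatrix_toLin, ← hr₁a, ← hr₂a, hPx]
  exact LinearMap.congr_fun h1 x

end Fermat.Agent.TraceRigidity
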