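import Mathlib
import Fermat.Agent.Lib.TraceRigidity.GaloisRep
import Fermat.Agent.F3.Interfaces

/-!
# From Frobenius charpolys to equivalence (owner: helper62)

If two `GaloisRepAdic T` (`T` Noetherian local) have the same characteristic polynomials at all
Frobenius elements outside a finite set of primes, then (assuming Frobenius density in the
existence form `F3.FrobDensityLite`) they have the same traces everywhere; if moreover one of them
is residually absolutely irreducible, they are equivalent.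
-/

namespace Fermat.Agent.TraceRigidity

open Module Polynomial

section Algebra

variable {A : Type*} [CommRing A]

/-- Coordinates of an element of `I • ⊤` lie in `I`. -/
lemma repr_mem_of_mem_smul_top {V : Type*} [AddCommGroup V] [Module A V] {ι : Type*}
    (b : Basis ι A V) (I : Ideal A) {x : V} (hx : x ∈ I • (⊤ : Submodule A V)) (i : ι) :
    b.repr x i ∈ I := by
  refine Submodule.smul_induction_on (p := fun x => b.repr x i ∈ I) hx ?_ ?_
  · intro a ha v _
    rw [map_smul, Finsupp.smul_apply, smul_eq_mul]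
    exact I.mul_mem_right _ ha
  · intro x y hx hy
    rw [map_add, Finsupp.add_apply]
    exact I.add_mem hx hy

/-- If two endomorphisms are congruent modulo `I`, so are their traces. -/
lemma trace_sub_mem_of_forall_sub_mem {V : Type*} [AddCommGroup V] [Module A V]
    [Module.Free A V] [Module.Finite A V] (I : Ideal A) (f g : Module.End A V)
    (h : ∀ v, f v - g v ∈ I • (⊤ : Submodule A V)) :
    LinearMap.trace A V f - LinearMap.trace A V g ∈ I := by
  classical
  set b := Module.Free.chooseBasis A V with hb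
  rw [← map_sub, LinearMap.trace_eq_matrix_trace A b, Matrix.trace]
  refine I.sum_mem fun i _ => ?_
  rw [Matrix.diag_apply, LinearMap.toMatrix_apply, LinearMap.sub_apply]
  exact repr_mem_of_mem_smul_top b I (h (b i)) i

/-- A linear map sends `I • ⊤` into `I • ⊤`. -/
lemma map_mem_smul_top {V : Type*} [AddCommGroup V] [Module A V] (I : Ideal A)
    (f : Module.End A V) {x : V} (hx : x ∈ I • (⊤ : Submodule A V)) :
    f x ∈ I • (⊤ : Submodule A V) := by
  refine Submodule.smul_induction_on (p := fun x => f x ∈ I • (⊤ : Submodule A V)) hx ?_ ?_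
  · intro a ha v _
    rw [map_smul]
    exact Submodule.smul_mem_smul ha Submodule.mem_top
  · intro x y hx hy
    rw [map_add]
    exact Submodule.add_mem _ hx hy

/-- The traces of the powers of a `2 × 2` matrix are determined by its characteristic
polynomial. -/
lemma matrix_trace_pow_eq_of_charpoly_eq [Nontrivial A] (M₁ M₂ : Matrix (Fin 2) (Fin 2) A)
    (h : M₁.charpoly = M₂.charpoly) (j : ℕ) : (M₁ ^ j).trace = (M₂ ^ j).trace := by
  have htr : M₁.trace = M₂.trace := by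
    rw [Matrix.trace_eq_neg_charpoly_coeff, Matrix.trace_eq_neg_charpoly_coeff, h]
  have hdet : M₁.det = M₂.det := by
    rw [Matrix.det_eq_sign_charpoly_coeff, Matrix.det_eq_sign_charpoly_coeff, h]
  have hrec : ∀ M : Matrix (Fin 2) (Fin 2) A, ∀ n : ℕ,
      (M ^ (n + 2)).trace = M.trace * (M ^ (n + 1)).trace - M.det * (M ^ n).trace := by
    intro M n
    have hCH : M ^ 2 = M.trace • M - M.det • (1 : Matrix (Fin 2) (Fin 2) A) := by
      have h1 := Matrix.aeval_self_charpoly M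
      rw [Matrix.charpoly_fin_two] at h1
      simp only [map_add, map_sub, map_mul, map_pow, aeval_X, aeval_C,
        Algebra.algebraMap_eq_smul_one] at h1
      rw [smul_mul_assoc, one_mul] at h1
      rw [← sub_eq_zero, ← h1]
      abel
    have h2 : M ^ (n + 2) = M.trace • M ^ (n + 1) - M.det • M ^ n := by
      rw [pow_add, hCH, mul_sub, mul_smul_comm, mul_smul_comm, mul_one, ← pow_succ]
    rw [h2, Matrix.trace_sub, Matrix.trace_smul, Matrix.trace_smul, smul_eq_mul, smul_eq_mul]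
  induction j using Nat.strong_induction_on with
  | _ j ih =>
    match j with
    | 0 => simp
    | 1 => simpa using htr
    | (n + 2) =>
      rw [hrec M₁ n, hrec M₂ n, ih (n + 1) (by omega), ih n (by omega), htr, hdet]

/-- The traces of the powers of an endomorphism of a free module of rank two are determined by
its characteristic polynomial. -/
lemma trace_pow_eq_of_charpoly_eq [Nontrivial A] {V₁ V₂ : Type*} [AddCommGroup V₁] [Module A V₁]
    [AddCommGroup V₂] [Module A V₂] [Module.Free A V₁] [Module.Finite A V₁]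
    [Module.Free A V₂] [Module.Finite A V₂]
    (h₁ : Module.finrank A V₁ = 2) (h₂ : Module.finrank A V₂ = 2)
    (f₁ : Module.End A V₁) (f₂ : Module.End A V₂) (h : f₁.charpoly = f₂.charpoly) (j : ℕ) :
    LinearMap.trace A V₁ (f₁ ^ j) = LinearMap.trace A V₂ (f₂ ^ j) := by
  classical
  set b₁ : Basis (Fin 2) A V₁ := Module.finBasisOfFinrankEq A V₁ h₁
  set b₂ : Basis (Fin 2) A V₂ := Module.finBasisOfFinrankEq A V₂ h₂
  rw [LinearMap.trace_eq_matrix_trace A b₁, LinearMap.trace_eq_matrix_trace A b₂,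
    ← LinearMap.toMatrix_pow, ← LinearMap.toMatrix_pow]
  apply matrix_trace_pow_eq_of_charpoly_eq
  rw [LinearMap.charpoly_toMatrix, LinearMap.charpoly_toMatrix, h]

end Algebra

section Galois

open Fermat.Agent.F3

variable {T : Type} [CommRing T] [IsLocalRing T]

/-- Congruence of `ρ s` and `ρ t` modulo `𝔪 ^ n` when `s` and `t` agree on the level-`n` field. -/
lemma trace_sub_mem_of_agree (ρ : GaloisRepAdic T) (n : ℕ)
    (L : IntermediateField ℚ (AlgebraicClosure ℚ))
    (hL : ∀ σ : GQ, (∀ x ∈ L, σ x = x) →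
      ∀ v : ρ.V, ρ.ρ σ v - v ∈ (IsLocalRing.maximalIdeal T ^ n) • (⊤ : Submodule T ρ.V))
    (s t : GQ) (hst : ∀ x ∈ L, t x = s x) :
    LinearMap.trace T ρ.V (ρ.ρ t) - LinearMap.trace T ρ.V (ρ.ρ s) ∈
      IsLocalRing.maximalIdeal T ^ n := by
  apply trace_sub_mem_of_forall_sub_mem
  intro v
  have h1 : ∀ x ∈ L, (s⁻¹ * t) x = x := by
    intro x hx
    rw [AlgEquiv.mul_apply, hst x hx]
    exact s.symm_apply_apply x
  have h2 := hL (s⁻¹ * t) h1 v
  have h3 : ρ.ρ t v - ρ.ρ s v = ρ.ρ s (ρ.ρ (s⁻¹ * t) v - v) := by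
    rw [map_sub, ← Module.End.mul_apply, ← map_mul, mul_inv_cancel_left]
  rw [h3]
  exact map_mem_smul_top _ _ h2

/-- **Frobenius charpolys determine the trace.** -/
theorem trace_eq_of_charpoly_frob_eq [IsNoetherianRing T] (hdens : FrobDensityLite)
    (ρ₁ ρ₂ : GaloisRepAdic T) (S : Finset ℕ)
    (hfrob : ∀ ℓ : ℕ, ℓ.Prime → ℓ ∉ S →
      ∀ A : ValuationSubring (AlgebraicClosure ℚ), A.LiesOverPrime ℓ →
        ∀ σ : GQ, A.IsFrobeniusAt σ ℓ →
          LinearMap.charpoly (ρ₁.ρ σ) = LinearMap.charpoly (ρ₂.ρ σ))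
    (s : GQ) :
    LinearMap.trace T ρ₁.V (ρ₁.ρ s) = LinearMap.trace T ρ₂.V (ρ₂.ρ s) := by
  have hbot : ⨅ n : ℕ, IsLocalRing.maximalIdeal T ^ n = ⊥ :=
    Ideal.iInf_pow_eq_bot_of_isLocalRing _ (Ideal.IsMaximal.ne_top inferInstance)
  rw [← sub_eq_zero, ← Ideal.mem_bot, ← hbot, Ideal.mem_iInf]
  intro n
  obtain ⟨L₁, hL₁fd, hL₁⟩ := ρ₁.isAdicContinuous n
  obtain ⟨L₂, hL₂fd, hL₂⟩ := ρ₂.isAdicContinuous n
  have := hL₁fd
  have := hL₂fd
  have hQalg : Algebra.IsAlgebraic ℚ (AlgebraicClosure ℚ) := AlgebraicClosure.isAlgebraic ℚ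
  have hQcl : IsAlgClosure ℚ (AlgebraicClosure ℚ) := ⟨inferInstance, hQalg⟩
  have hQn : Normal ℚ (AlgebraicClosure ℚ) :=
    (inferInstance : IsGalois ℚ (AlgebraicClosure ℚ)).to_normal
  set L : IntermediateField ℚ (AlgebraicClosure ℚ) :=
    IntermediateField.normalClosure ℚ (↥(L₁ ⊔ L₂)) (AlgebraicClosure ℚ) with hLdef
  have hLfd : FiniteDimensional ℚ L := normalClosure.is_finiteDimensional ℚ _ _
  have hLn : Normal ℚ L := normalClosure.normal ℚ _ _
  have hL₁L : L₁ ≤ L := le_trans le_sup_left (IntermediateField.le_normalClosure _)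
  have hL₂L : L₂ ≤ L := le_trans le_sup_right (IntermediateField.le_normalClosure _)
  obtain ⟨ℓ, A, τ, k, j, hℓ, hℓS, hA, hτ, hτs, hkj⟩ := hdens L hLfd hLn s S
  -- `L` is stable under `G_ℚ`
  have hstab : ∀ σ : GQ, ∀ x ∈ L, σ x ∈ L := by
    intro σ x hx
    have := (IntermediateField.normal_iff_forall_map_le'.1 hLn) σ
    exact this ⟨x, hx, rfl⟩
  -- `τ ^ j = s` on `L`
  have hpow : ∀ m : ℕ, ∀ x ∈ L, (τ ^ m) x = ((s ^ k) ^ m) x := by
    intro m
    induction m with
    | zero => intro x _; simp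
    | succ m ih =>
      intro x hx
      rw [pow_succ, pow_succ, AlgEquiv.mul_apply, AlgEquiv.mul_apply, hτs x hx]
      exact ih _ (hstab _ x hx)
  have hτj : ∀ x ∈ L, (τ ^ j) x = s x := by
    intro x hx
    rw [hpow j x hx, ← pow_mul]
    exact hkj x hx
  have h1 := trace_sub_mem_of_agree ρ₁ n L (fun σ hσ => hL₁ σ fun x hx => hσ x (hL₁L hx))
    s (τ ^ j) hτj
  have h2 := trace_sub_mem_of_agree ρ₂ n L (fun σ hσ => hL₂ σ fun x hx => hσ x (hL₂L hx))
    s (τ ^ j) hτj
  have h3 : LinearMap.trace T ρ₁.V (ρ₁.ρ (τ ^ j)) = LinearMap.trace T ρ₂.V (ρ₂.ρ (τ ^ j)) := by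
    rw [map_pow ρ₁.ρ, map_pow ρ₂.ρ]
    exact trace_pow_eq_of_charpoly_eq ρ₁.finrank_eq ρ₂.finrank_eq _ _ (hfrob ℓ hℓ hℓS A hA τ hτ) j
  have h4 : LinearMap.trace T ρ₁.V (ρ₁.ρ s) - LinearMap.trace T ρ₂.V (ρ₂.ρ s) =
      (LinearMap.trace T ρ₂.V (ρ₂.ρ (τ ^ j)) - LinearMap.trace T ρ₂.V (ρ₂.ρ s)) -
      (LinearMap.trace T ρ₁.V (ρ₁.ρ (τ ^ j)) - LinearMap.trace T ρ₁.V (ρ₁.ρ s)) := by
    rw [h3]; ring
  rw [h4]
  exact Ideal.sub_mem _ h2 h1

/-- **Frobenius charpolys determine the representation** (residually absolutely irreducible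
case). -/
theorem isEquiv_of_charpoly_frob_eq [IsNoetherianRing T] (hdens : FrobDensityLite)
    (ρ₁ ρ₂ : GaloisRepAdic T) (habs : ρ₁.residual.IsAbsolutelyIrreducible) (S : Finset ℕ)
    (hfrob : ∀ ℓ : ℕ, ℓ.Prime → ℓ ∉ S →
      ∀ A : ValuationSubring (AlgebraicClosure ℚ), A.LiesOverPrime ℓ →
        ∀ σ : GQ, A.IsFrobeniusAt σ ℓ →
          LinearMap.charpoly (ρ₁.ρ σ) = LinearMap.charpoly (ρ₂.ρ σ)) :
    ρ₁.IsEquiv ρ₂ :=
  isEquiv_of_trace_eq ρ₁ ρ₂ habs (trace_eq_of_charpoly_frob_eq hdens ρ₁ ρ₂ S hfrob)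

/-- Unramifiedness is invariant under equivalence. -/
theorem isUnramifiedAt_of_isEquiv {ρ₁ ρ₂ : GaloisRepAdic T} (h : ρ₁.IsEquiv ρ₂) (q : ℕ)
    (h1 : ρ₁.IsUnramifiedAt q) : ρ₂.IsUnramifiedAt q := by
  obtain ⟨e⟩ := h
  intro P hP σ hσ
  refine LinearMap.ext fun y => ?_
  obtain ⟨x, rfl⟩ := e.toLinearEquiv.surjective y
  rw [← e.map_apply, h1 P hP σ hσ]
  rfl

end Galois

end Fermat.Agent.TraceRigidity
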